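import Fermat.Agent.Frob.Integrality

set_option autoImplicit false
set_option linter.style.haveILetI false

open Polynomial
open scoped Pointwise

namespace Fermat.Agent.Frob

noncomputable section

abbrev Qb := AlgebraicClosure ℚ
abbrev Zb := integralClosure ℤ Qb

theorem isAlgebraic_Qb : Algebra.IsAlgebraic ℚ Qb := by
  have h : (AlgebraicClosure.instAlgebra ℚ : Algebra ℚ Qb) = DivisionRing.toRatAlgebra :=
    Subsingleton.elim _ _
  exact h ▸ AlgebraicClosure.isAlgebraic ℚ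

attribute [local instance] isAlgebraic_Qb

theorem isAlgClosure_Qb : IsAlgClosure ℚ Qb := ⟨inferInstance, inferInstance⟩

attribute [local instance] isAlgClosure_Qb

example : IsGalois ℚ Qb := inferInstance
example : CompactSpace (Qb ≃ₐ[ℚ] Qb) := inferInstance
example : TotallyDisconnectedSpace (Qb ≃ₐ[ℚ] Qb) := inferInstance
example : IsTopologicalGroup (Qb ≃ₐ[ℚ] Qb) := inferInstance
example : IsIntegralClosure Zb ℤ Qb := inferInstance
theorem isAlgebraic_int_Qb : Algebra.IsAlgebraic ℤ Qb :=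
  (IsFractionRing.comap_isAlgebraic_iff (A := ℤ) (K := ℚ) (C := Qb)).mpr inferInstance

attribute [local instance] isAlgebraic_int_Qb

theorem isFractionRing_Zb : IsFractionRing Zb Qb :=
  integralClosure.isFractionRing_of_algebraic (A := ℤ) (L := Qb)
    (fun x hx => by simpa using hx)

attribute [local instance] isFractionRing_Zb

@[instance_reducible]
def galAction : MulSemiringAction (Qb ≃ₐ[ℚ] Qb) Zb :=
  IsIntegralClosure.MulSemiringAction ℤ ℚ Qb Zb

attribute [local instance] galAction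

theorem coe_smul_Zb (σ : Qb ≃ₐ[ℚ] Qb) (b : Zb) : ((σ • b : Zb) : Qb) = σ (b : Qb) :=
  algebraMap_galRestrict_apply ℤ σ b

example : SMulCommClass (Qb ≃ₐ[ℚ] Qb) ℤ Zb := inferInstance

end

end Fermat.Agent.Frob

namespace Fermat.Agent.Frob

noncomputable section

attribute [local instance] isAlgebraic_Qb isAlgClosure_Qb isAlgebraic_int_Qb isFractionRing_Zb
  galAction

theorem isInvariant_Zb : Algebra.IsInvariant ℤ Zb (Qb ≃ₐ[ℚ] Qb) := by
  refine ⟨fun b hb => ?_⟩
  have hfix : ∀ f : Qb ≃ₐ[ℚ] Qb, f (b : Qb) = (b : Qb) := fun f => by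
    rw [← coe_smul_Zb, hb f]
  obtain ⟨q, hq⟩ := (InfiniteGalois.mem_range_algebraMap_iff_fixed (k := ℚ) (K := Qb) (b : Qb)).mpr hfix
  have hint : IsIntegral ℤ (algebraMap ℚ Qb q) := hq ▸ b.2
  have hintQ : IsIntegral ℤ q :=
    (isIntegral_algebraMap_iff (algebraMap ℚ Qb).injective).mp hint
  obtain ⟨m, hm⟩ := IsIntegrallyClosed.isIntegral_iff.mp hintQ
  refine ⟨m, Subtype.ext ?_⟩
  rw [← hq, ← hm]
  simp

theorem continuousSMul_Zb [TopologicalSpace Zb] [DiscreteTopology Zb] :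
    ContinuousSMul (Qb ≃ₐ[ℚ] Qb) Zb := by
  refine (continuousSMul_iff_stabilizer_isOpen (M := Qb ≃ₐ[ℚ] Qb) (X := Zb)).mpr ?_
  intro b
  convert stabilizer_isOpen_of_isIntegral (K := ℚ) (L := Qb) (b : Qb) using 2
  ext g
  simp only [MulAction.mem_stabilizer_iff]
  constructor
  · intro h
    have := congrArg (fun z : Zb => (z : Qb)) h
    simpa [coe_smul_Zb] using this
  · intro h
    apply Subtype.ext
    rw [coe_smul_Zb]
    exact h

/-- The center on `Zb` of a valuation subring of `Qb`. -/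
def center (V : ValuationSubring Qb) : Ideal Zb where
  carrier := {b | (b : Qb) ∈ V.nonunits}
  add_mem' := fun {a b} ha hb => V.nonunits.add_mem ha hb
  zero_mem' := V.nonunits.zero_mem
  smul_mem' := fun c x hx => by
    change ((c * x : Zb) : Qb) ∈ V.nonunits
    change (x : Qb) ∈ V.nonunits at hx
    rw [V.mem_nonunits_iff] at hx ⊢
    push_cast
    rw [map_mul]
    have hc : V.valuation (c : Qb) ≤ 1 :=
      (V.valuation_le_one_iff _).mpr (mem_valuationSubring_of_isIntegral V c.2)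
    calc V.valuation (c : Qb) * V.valuation (x : Qb) ≤ 1 * V.valuation (x : Qb) := by gcongr
      _ = V.valuation (x : Qb) := one_mul _
      _ < 1 := hx

theorem mem_center (V : ValuationSubring Qb) (b : Zb) : b ∈ center V ↔ (b : Qb) ∈ V.nonunits :=
  Iff.rfl

theorem center_isPrime (V : ValuationSubring Qb) : (center V).IsPrime := by
  refine ⟨?_, ?_⟩
  · intro h
    have h1 : (1 : Zb) ∈ center V := h ▸ Submodule.mem_top
    rw [mem_center, V.mem_nonunits_iff] at h1
    simp at h1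
  · intro a b hab
    rw [mem_center, V.mem_nonunits_iff] at hab
    simp only [mem_center, V.mem_nonunits_iff]
    push_cast at hab
    rw [map_mul] at hab
    by_contra hcon
    push Not at hcon
    have ha : V.valuation (a : Qb) = 1 := le_antisymm
      ((V.valuation_le_one_iff _).mpr (mem_valuationSubring_of_isIntegral V a.2)) hcon.1
    have hb : V.valuation (b : Qb) = 1 := le_antisymm
      ((V.valuation_le_one_iff _).mpr (mem_valuationSubring_of_isIntegral V b.2)) hcon.2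
    rw [ha, hb, one_mul] at hab
    exact lt_irrefl _ hab

end

end Fermat.Agent.Frob

namespace Fermat.Agent.Frob

noncomputable section

attribute [local instance] isAlgebraic_Qb isAlgClosure_Qb isAlgebraic_int_Qb isFractionRing_Zb
  galAction

theorem exists_frob_of_valuationSubring (V : ValuationSubring Qb) {ℓ : ℕ} (hℓ : ℓ.Prime)
    (hV : (ℓ : Qb) ∈ V.nonunits) :
    ∃ σ : Qb ≃ₐ[ℚ] Qb, ∀ b : Zb, σ (b : Qb) - (b : Qb) ^ ℓ ∈ V.nonunits := by
  let Q := center V
  haveI hQ : Q.IsPrime := center_isPrime V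
  let P := Q.under ℤ
  haveI : Q.LiesOver P := Ideal.over_under Q
  letI : TopologicalSpace Zb := ⊥
  haveI : DiscreteTopology Zb := ⟨rfl⟩
  haveI := continuousSMul_Zb
  haveI := isInvariant_Zb
  have hℓQ : ((ℓ : ℕ) : Zb) ∈ Q := by
    rw [mem_center]; simpa using hV
  haveI : CharP (Zb ⧸ Q) ℓ := (CharP.charP_iff_prime_eq_zero hℓ).mpr (by
    rw [← map_natCast (Ideal.Quotient.mk Q), Ideal.Quotient.eq_zero_iff_mem]; exact hℓQ)
  haveI : ExpChar (Zb ⧸ Q) ℓ := ExpChar.prime hℓ
  have hinj : Function.Injective (frobenius (Zb ⧸ Q) ℓ) := frobenius_inj _ _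
  have hsurj : Function.Surjective (frobenius (Zb ⧸ Q) ℓ) := by
    intro x
    obtain ⟨b, rfl⟩ := Ideal.Quotient.mk_surjective x
    obtain ⟨c, hc⟩ := IsAlgClosed.exists_pow_nat_eq (b : Qb) hℓ.pos
    have hcint : IsIntegral ℤ c := IsIntegral.of_pow hℓ.pos (hc ▸ b.2)
    refine ⟨Ideal.Quotient.mk Q ⟨c, hcint⟩, ?_⟩
    rw [frobenius_def, ← map_pow]
    congr 1
    exact Subtype.ext hc
  let f : (Zb ⧸ Q) →ₐ[ℤ ⧸ P] (Zb ⧸ Q) :=
    { frobenius (Zb ⧸ Q) ℓ with
      commutes' := fun r => by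
        obtain ⟨n, rfl⟩ := Ideal.Quotient.mk_surjective r
        change (algebraMap (ℤ ⧸ P) (Zb ⧸ Q) (Ideal.Quotient.mk P n)) ^ ℓ = _
        have h1 : algebraMap (ℤ ⧸ P) (Zb ⧸ Q) (Ideal.Quotient.mk P n)
            = Ideal.Quotient.mk Q (n : Zb) := by
          rw [Ideal.Quotient.algebraMap_mk_of_liesOver]; simp
        rw [h1, ← map_pow, Ideal.Quotient.eq]
        have h2 : (ℓ : ℤ) ∣ n ^ ℓ - n := by
          haveI : Fact ℓ.Prime := ⟨hℓ⟩
          rw [← ZMod.intCast_zmod_eq_zero_iff_dvd]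
          push_cast
          rw [ZMod.pow_card, sub_self]
        obtain ⟨m, hm⟩ := h2
        have h3 : ((n : Zb) ^ ℓ - (n : Zb)) = (ℓ : Zb) * (m : Zb) := by
          have := congrArg (fun z : ℤ => (z : Zb)) hm
          push_cast at this
          exact this
        rw [h3]
        exact Q.mul_mem_right _ hℓQ }
  let l : (Zb ⧸ Q) ≃ₐ[ℤ ⧸ P] (Zb ⧸ Q) := AlgEquiv.ofBijective f ⟨hinj, hsurj⟩
  obtain ⟨σ, hσ⟩ := Ideal.Quotient.stabilizerHom_surjective_of_profinite
    (G := Qb ≃ₐ[ℚ] Qb) P Q l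
  refine ⟨σ.1, fun b => ?_⟩
  have h1 := DFunLike.congr_fun hσ (Ideal.Quotient.mk Q b)
  rw [Ideal.Quotient.stabilizerHom_apply] at h1
  have h2 : l (Ideal.Quotient.mk Q b) = Ideal.Quotient.mk Q (b ^ ℓ) := by
    rw [map_pow]; rfl
  rw [h2, Ideal.Quotient.eq] at h1
  have h3 : (((σ • b - b ^ ℓ : Zb)) : Qb) ∈ V.nonunits := h1
  have h4 : (((σ • b - b ^ ℓ : Zb)) : Qb) = σ.1 (b : Qb) - (b : Qb) ^ ℓ := by
    push_cast
    congr 1
    exact coe_smul_Zb σ.1 b
  rw [← h4]
  exact h3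

end

end Fermat.Agent.Frob
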