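import Fermat.Agent.Frob.Fraction
import Fermat.Agent.Frob.Profinite
import Fermat.Prelude.Def_EllipticCurve_FrobeniusTrace

set_option autoImplicit false
set_option linter.style.haveILetI false

open Polynomial
open scoped Pointwise

namespace Fermat.Agent.Frob

noncomputable section

attribute [local instance] isAlgebraic_Qb isAlgClosure_Qb isAlgebraic_int_Qb isFractionRing_Zb

/-- existence of a valuation subring over `ℓ`. -/
theorem exists_valuationSubring_over (ℓ : ℕ) (hℓ : ℓ.Prime) :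
    ∃ V : ValuationSubring Qb, (ℓ : Qb) ∈ V.nonunits := by
  have hne : Ideal.span {((ℓ : ℕ) : Zb.toSubring)} ≠ ⊤ := by
    intro htop
    rw [Ideal.span_singleton_eq_top] at htop
    obtain ⟨u, hu⟩ := htop
    have h1 : ((ℓ : ℕ) : Zb.toSubring) * ((u⁻¹ : (Zb.toSubring)ˣ) : Zb.toSubring) = 1 := by
      rw [← hu]; exact u.mul_inv
    set x : Zb.toSubring := ((u⁻¹ : (Zb.toSubring)ˣ) : Zb.toSubring) with hx
    have h2 : (ℓ : Qb) * (x : Qb) = 1 := by
      have := congrArg (fun z : Zb.toSubring => (z : Qb)) h1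
      simpa using this
    have hℓ0 : (ℓ : Qb) ≠ 0 := by exact_mod_cast hℓ.ne_zero
    have hxval : (x : Qb) = (ℓ : Qb)⁻¹ := by
      field_simp
      linear_combination h2
    have hint : IsIntegral ℤ ((ℓ : Qb)⁻¹) := by rw [← hxval]; exact x.2
    have hmap : algebraMap ℚ Qb ((ℓ : ℚ)⁻¹) = (ℓ : Qb)⁻¹ := by simp
    rw [← hmap] at hint
    have hintQ : IsIntegral ℤ ((ℓ : ℚ)⁻¹) :=
      (isIntegral_algebraMap_iff (algebraMap ℚ Qb).injective).mp hint
    obtain ⟨m, hm⟩ := IsIntegrallyClosed.isIntegral_iff.mp hintQ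
    rw [eq_intCast] at hm
    have hℓQ : (ℓ : ℚ) ≠ 0 := by exact_mod_cast hℓ.ne_zero
    have hmul : (((ℓ : ℤ) * m : ℤ) : ℚ) = ((1 : ℤ) : ℚ) := by
      push_cast; rw [hm]; field_simp
    have hdvd : (ℓ : ℤ) ∣ 1 := ⟨m, (Int.cast_injective hmul).symm⟩
    have hle : (ℓ : ℤ) ≤ 1 := Int.le_of_dvd one_pos hdvd
    have := hℓ.two_le
    omega
  obtain ⟨V, -, hV⟩ := Ideal.image_subset_nonunits_valuationSubring _ hne
  refine ⟨V, ?_⟩
  have := hV ⟨((ℓ : ℕ) : Zb.toSubring), Ideal.subset_span rfl, rfl⟩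
  simpa using this

end

end Fermat.Agent.Frob

namespace Fermat.Agent.Frob

noncomputable section

attribute [local instance] isAlgebraic_Qb isAlgClosure_Qb isAlgebraic_int_Qb isFractionRing_Zb

theorem valuation_le_one_of_isIntegral (V : ValuationSubring Qb) {y : Qb} (hy : IsIntegral ℤ y) :
    V.valuation y ≤ 1 :=
  (V.valuation_le_one_iff _).mpr (mem_valuationSubring_of_isIntegral V hy)

theorem exists_frobenius (ℓ : ℕ) (hℓ : ℓ.Prime) :
    ∃ (A : ValuationSubring (AlgebraicClosure ℚ))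
      (σ : AlgebraicClosure ℚ ≃ₐ[ℚ] AlgebraicClosure ℚ),
      A.LiesOverPrime ℓ ∧ A.IsFrobeniusAt σ ℓ := by
  obtain ⟨V, hV⟩ := exists_valuationSubring_over ℓ hℓ
  obtain ⟨σ, hσ⟩ := exists_frob_of_valuationSubring V hℓ hV
  -- basic facts
  have hfrob : ∀ y : Qb, IsIntegral ℤ y → V.valuation (σ y - y ^ ℓ) < 1 := fun y hy =>
    (V.mem_nonunits_iff).mp (hσ ⟨y, hy⟩)
  have hσint : ∀ y : Qb, IsIntegral ℤ y → IsIntegral ℤ (σ y) := fun y hy =>
    map_isIntegral_int σ hy
  have hσsint : ∀ y : Qb, IsIntegral ℤ y → IsIntegral ℤ (σ.symm y) := fun y hy =>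
    map_isIntegral_int σ.symm hy
  have F1 : ∀ y : Qb, IsIntegral ℤ y → V.valuation y = 1 → V.valuation (σ y) = 1 := by
    intro y hy hy1
    have h1 : σ y = y ^ ℓ + (σ y - y ^ ℓ) := by ring
    have h2 : V.valuation (y ^ ℓ) = 1 := by rw [map_pow, hy1, one_pow]
    rw [h1, Valuation.map_add_eq_of_lt_left _ (by rw [h2]; exact hfrob y hy), h2]
  have F2 : ∀ y : Qb, IsIntegral ℤ y → V.valuation y = 1 → V.valuation (σ.symm y) = 1 := by
    intro y hy hy1
    have hy' := hσsint y hy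
    have h1 := hfrob (σ.symm y) hy'
    rw [AlgEquiv.apply_symm_apply] at h1
    have h2 : V.valuation ((σ.symm y) ^ ℓ) = 1 := by
      have h3 : (σ.symm y) ^ ℓ = y + -(y - (σ.symm y) ^ ℓ) := by ring
      rw [h3, Valuation.map_add_eq_of_lt_left _ (by rw [Valuation.map_neg, hy1]; exact h1), hy1]
    rw [map_pow] at h2
    refine le_antisymm (valuation_le_one_of_isIntegral V hy') ?_
    by_contra hlt
    rw [not_le] at hlt
    have : V.valuation (σ.symm y) ^ ℓ < 1 := pow_lt_one₀ zero_le hlt hℓ.ne_zero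
    rw [h2] at this
    exact lt_irrefl _ this
  have F3 : ∀ x ∈ V, σ x ∈ V ∧ V.valuation (σ x - x ^ ℓ) < 1 := by
    intro x hx
    obtain ⟨a, b, ha, hb, hb1, hxb⟩ :=
      exists_integral_fraction V hℓ hV hx (isAlgebraic_int_Qb.isAlgebraic x)
    have hσb1 := F1 b hb hb1
    have hσxb : σ x * σ b = σ a := by rw [← map_mul, hxb]
    constructor
    · rw [← V.valuation_le_one_iff]
      have h1 : V.valuation (σ x) = V.valuation (σ a) := by
        rw [← hσxb, map_mul, hσb1, mul_one]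
      rw [h1]
      exact valuation_le_one_of_isIntegral V (hσint a ha)
    · have h1 : (σ x - x ^ ℓ) * (σ b * b ^ ℓ) = (σ a - a ^ ℓ) * b ^ ℓ - a ^ ℓ * (σ b - b ^ ℓ) := by
        rw [← hσxb, ← hxb]; ring
      have h2 : V.valuation ((σ x - x ^ ℓ) * (σ b * b ^ ℓ)) = V.valuation (σ x - x ^ ℓ) := by
        rw [map_mul, map_mul, map_pow, hσb1, hb1, one_pow, mul_one, mul_one]
      rw [← h2, h1]
      refine lt_of_le_of_lt (Valuation.map_sub _ _ _) (max_lt ?_ ?_)
      · rw [map_mul, map_pow, hb1, one_pow, mul_one]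
        exact hfrob a ha
      · rw [map_mul, map_pow]
        calc V.valuation a ^ ℓ * V.valuation (σ b - b ^ ℓ)
            ≤ 1 * V.valuation (σ b - b ^ ℓ) := by
              gcongr
              exact pow_le_one₀ zero_le (valuation_le_one_of_isIntegral V ha)
          _ = V.valuation (σ b - b ^ ℓ) := one_mul _
          _ < 1 := hfrob b hb
  have F4 : ∀ x ∈ V, σ.symm x ∈ V := by
    intro x hx
    obtain ⟨a, b, ha, hb, hb1, hxb⟩ :=
      exists_integral_fraction V hℓ hV hx (isAlgebraic_int_Qb.isAlgebraic x)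
    have hσb1 := F2 b hb hb1
    have hσxb : σ.symm x * σ.symm b = σ.symm a := by rw [← map_mul, hxb]
    rw [← V.valuation_le_one_iff]
    have h1 : V.valuation (σ.symm x) = V.valuation (σ.symm a) := by
      rw [← hσxb, map_mul, hσb1, mul_one]
    rw [h1]
    exact valuation_le_one_of_isIntegral V (hσsint a ha)
  have hmem : σ ∈ V.decompositionSubgroup ℚ := by
    rw [MulAction.mem_stabilizer_iff]
    ext x
    rw [ValuationSubring.mem_pointwise_smul_iff_inv_smul_mem]
    constructor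
    · intro h
      have := (F3 _ h).1
      rwa [AlgEquiv.smul_def, AlgEquiv.aut_inv, AlgEquiv.apply_symm_apply] at this
    · intro h
      exact F4 x h
  refine ⟨V, σ, hV, hmem, ?_⟩
  intro x
  obtain ⟨v, rfl⟩ := IsLocalRing.residue_surjective x
  rw [← IsLocalRing.ResidueField.residue_smul, ← map_pow]
  refine Ideal.Quotient.eq.mpr ?_
  rw [ValuationSubring.valuation_lt_one_iff]
  exact (F3 v.1 v.2).2

end

end Fermat.Agent.Frob
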