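import Fermat.Agent.Frob.Integrality

set_option autoImplicit false
set_option linter.style.haveILetI false

open Polynomial

namespace Fermat.Agent.Frob

variable {L : Type*} [Field L]

/-- An integer not divisible by the prime `ℓ` has valuation one in a valuation subring in
which `ℓ` is a nonunit. -/
theorem valuation_intCast_eq_one (V : ValuationSubring L) {ℓ : ℕ} (hℓ : ℓ.Prime)
    (hV : (ℓ : L) ∈ V.nonunits) {c : ℤ} (hc : ¬ (ℓ : ℤ) ∣ c) : V.valuation (c : L) = 1 := by
  have hcop : IsCoprime c (ℓ : ℤ) := by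
    rw [isCoprime_comm]
    exact (Nat.prime_iff_prime_int.mp hℓ).coprime_iff_not_dvd.mpr hc
  obtain ⟨u, w, huw⟩ := hcop
  have hle : V.valuation (c : L) ≤ 1 :=
    (V.valuation_le_one_iff _).mpr (mem_valuationSubring_of_isIntegral V
      (by simpa using (isIntegral_algebraMap (R := ℤ) (A := L) (x := c))))
  refine le_antisymm hle ?_
  by_contra hlt
  rw [not_le] at hlt
  have h1 : V.valuation ((u : L) * c) < 1 := by
    rw [map_mul]
    have hu : V.valuation (u : L) ≤ 1 :=
      (V.valuation_le_one_iff _).mpr (mem_valuationSubring_of_isIntegral V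
        (by simpa using (isIntegral_algebraMap (R := ℤ) (A := L) (x := u))))
    calc V.valuation (u : L) * V.valuation (c : L) ≤ 1 * V.valuation (c : L) := by gcongr
      _ = V.valuation (c : L) := one_mul _
      _ < 1 := hlt
  have h2 : V.valuation ((w : L) * ℓ) < 1 := by
    rw [map_mul]
    have hw : V.valuation (w : L) ≤ 1 :=
      (V.valuation_le_one_iff _).mpr (mem_valuationSubring_of_isIntegral V
        (by simpa using (isIntegral_algebraMap (R := ℤ) (A := L) (x := w))))
    have hl : V.valuation (ℓ : L) < 1 := V.mem_nonunits_iff.mp hV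
    calc V.valuation (w : L) * V.valuation (ℓ : L) ≤ 1 * V.valuation (ℓ : L) := by gcongr
      _ = V.valuation (ℓ : L) := one_mul _
      _ < 1 := hl
  have h3 : V.valuation ((u : L) * c + (w : L) * ℓ) < 1 :=
    lt_of_le_of_lt (Valuation.map_add _ _ _) (max_lt h1 h2)
  have h4 : ((u : L) * c + (w : L) * ℓ) = 1 := by
    have := congrArg (fun z : ℤ => (z : L)) huw
    simpa using this
  rw [h4, map_one] at h3
  exact lt_irrefl _ h3

end Fermat.Agent.Frob

namespace Fermat.Agent.Frob

variable {L : Type*} [Field L]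

theorem exists_integral_fraction [CharZero L] (V : ValuationSubring L) {ℓ : ℕ} (hℓ : ℓ.Prime)
    (hV : (ℓ : L) ∈ V.nonunits) {x : L} (hx : x ∈ V) (halg : IsAlgebraic ℤ x) :
    ∃ a b : L, IsIntegral ℤ a ∧ IsIntegral ℤ b ∧ V.valuation b = 1 ∧ x * b = a := by
  by_cases hx0 : x = 0
  · exact ⟨0, 1, isIntegral_zero, isIntegral_one, map_one _, by simp [hx0]⟩
  obtain ⟨f, hf0, hfx⟩ := halg
  -- primitive part
  set g := f.primPart with hg
  have hgx : aeval x g = 0 := by
    have h1 : f = C f.content * g := f.eq_C_content_mul_primPart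
    rw [h1, map_mul, aeval_C] at hfx
    rcases mul_eq_zero.mp hfx with h | h
    · exfalso
      have hc : f.content ≠ 0 := by rwa [Ne, content_eq_zero_iff]
      rw [eq_intCast, Int.cast_eq_zero] at h
      exact hc h
    · exact h
  have hprim : g.IsPrimitive := f.isPrimitive_primPart
  -- exists coefficient not divisible by ℓ
  have hex : ∃ i, ¬ (ℓ : ℤ) ∣ g.coeff i := by
    by_contra hall
    push Not at hall
    have h1 : C (ℓ : ℤ) ∣ g := (C_dvd_iff_dvd_coeff _ _).mpr hall
    have hu := hprim _ h1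
    exact (Nat.prime_iff_prime_int.mp hℓ).not_isUnit hu
  -- maximal such index
  classical
  let s := g.support.filter (fun i => ¬ (ℓ : ℤ) ∣ g.coeff i)
  have hs : s.Nonempty := by
    obtain ⟨i, hi⟩ := hex
    exact ⟨i, Finset.mem_filter.mpr ⟨mem_support_iff.mpr (fun h0 => hi (h0 ▸ dvd_zero _)), hi⟩⟩
  let k := s.max' hs
  have hk : ¬ (ℓ : ℤ) ∣ g.coeff k := (Finset.mem_filter.mp (s.max'_mem hs)).2
  have hgt : ∀ i, k < i → (ℓ : ℤ) ∣ g.coeff i := by
    intro i hi
    by_contra hni
    have hmem : i ∈ s :=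
      Finset.mem_filter.mpr ⟨mem_support_iff.mpr (fun h0 => hni (h0 ▸ dvd_zero _)), hni⟩
    exact absurd (s.le_max' i hmem) (not_le.mpr hi)
  -- decomposition
  set r := g %ₘ X ^ k with hr
  set q := g /ₘ X ^ k with hq
  have hdecomp : r + X ^ k * q = g := modByMonic_add_div g (X ^ k)
  have hrdeg : r.degree < (k : WithBot ℕ) := by
    have := degree_modByMonic_lt g (monic_X_pow (R := ℤ) k)
    rwa [degree_X_pow] at this
  have hqcoeff : ∀ j, q.coeff j = g.coeff (j + k) := by
    intro j
    have h1 := congrArg (fun p => p.coeff (j + k)) hdecomp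
    simp only [coeff_add, coeff_X_pow_mul] at h1
    rw [← h1, coeff_eq_zero_of_degree_lt (lt_of_lt_of_le hrdeg (by exact_mod_cast Nat.le_add_left k j)),
      zero_add]
  -- y = q(x)
  have hxk : x ^ k * aeval x q = aeval x (-r) := by
    have h1 := congrArg (aeval x) hdecomp
    rw [hgx, map_add, map_mul, map_pow, aeval_X] at h1
    rw [map_neg]
    linear_combination h1
  have hrnat : (-r).natDegree ≤ k := by
    rw [natDegree_neg]
    exact natDegree_le_of_degree_le hrdeg.le
  have hyint : IsIntegral ℤ (aeval x q) := isIntegral_aeval_of_pow_mul_eq hx0 q (-r) k hrnat hxk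
  -- valuation of y is 1
  have hq0 : q = C (q.coeff 0) + X * q.divX := by
    rw [add_comm, mul_comm]; exact (divX_mul_X_add q).symm
  have hdivX : C (ℓ : ℤ) ∣ q.divX := by
    rw [C_dvd_iff_dvd_coeff]
    intro i
    rw [coeff_divX, hqcoeff]
    exact hgt _ (by omega)
  obtain ⟨p', hp'⟩ := hdivX
  have hy : aeval x q = (q.coeff 0 : L) + x * ((ℓ : L) * aeval x p') := by
    conv_lhs => rw [hq0, hp']
    simp
  have hval1 : V.valuation ((q.coeff 0 : ℤ) : L) = 1 := by
    apply valuation_intCast_eq_one V hℓ hV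
    rw [hqcoeff, zero_add]; exact hk
  have hval2 : V.valuation (x * ((ℓ : L) * aeval x p')) < 1 := by
    rw [map_mul, map_mul]
    have h1 : V.valuation x ≤ 1 := (V.valuation_le_one_iff _).mpr hx
    have h2 : V.valuation (ℓ : L) < 1 := V.mem_nonunits_iff.mp hV
    have h3 : V.valuation (aeval x p') ≤ 1 :=
      (V.valuation_le_one_iff _).mpr (aeval_mem_valuationSubring V hx p')
    calc V.valuation x * (V.valuation (ℓ : L) * V.valuation (aeval x p'))
        ≤ 1 * (V.valuation (ℓ : L) * 1) := by gcongr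
      _ = V.valuation (ℓ : L) := by simp
      _ < 1 := h2
  have hyval : V.valuation (aeval x q) = 1 := by
    rw [hy, Valuation.map_add_eq_of_lt_left _ (by rw [hval1]; exact hval2), hval1]
  have hyne : aeval x q ≠ 0 := by
    intro h0
    rw [h0, map_zero] at hyval
    exact zero_ne_one hyval
  -- k ≠ 0
  have hk0 : k ≠ 0 := by
    intro hk0
    have hr0 : r = 0 := by
      rw [hk0] at hrdeg
      have h0 : r.degree < 0 := by exact_mod_cast hrdeg
      exact degree_eq_bot.mp (Nat.WithBot.lt_zero_iff.mp h0)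
    rw [hr0, hk0, pow_zero, one_mul, neg_zero, map_zero] at hxk
    exact hyne hxk
  -- x * y integral
  have hxyint : IsIntegral ℤ (aeval x (X * q)) := by
    apply isIntegral_aeval_of_pow_mul_eq hx0 (X * q) (-r) (k - 1)
    · rw [natDegree_neg]
      have : r.degree < (k : WithBot ℕ) := hrdeg
      by_cases hr0 : r = 0
      · simp [hr0]
      · have := (natDegree_lt_iff_degree_lt hr0).mpr hrdeg
        omega
    · rw [map_mul, aeval_X, ← hxk]
      have : x ^ k = x ^ (k - 1) * x := by
        rw [← pow_succ]; congr 1; omega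
      rw [this]; ring
  refine ⟨aeval x (X * q), aeval x q, hxyint, hyint, hyval, ?_⟩
  rw [map_mul, aeval_X]

end Fermat.Agent.Frob
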