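import Mathlib

set_option autoImplicit false
set_option linter.style.haveILetI false

open Polynomial

namespace Fermat.Agent.Frob

variable {L : Type*} [Field L]

/-- Every element integral over `ℤ` belongs to every valuation subring. -/
theorem mem_valuationSubring_of_isIntegral (V : ValuationSubring L) {y : L}
    (hy : IsIntegral ℤ y) : y ∈ V := by
  have h1 : IsIntegral V y := hy.tower_top
  obtain ⟨v, hv⟩ := IsIntegrallyClosed.algebraMap_eq_of_integral h1
  rw [← hv]
  exact v.2

/-- A polynomial with integer coefficients evaluated at an element of a valuation subring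
stays in the valuation subring. -/
theorem aeval_mem_valuationSubring (V : ValuationSubring L) {x : L} (hx : x ∈ V) (q : ℤ[X]) :
    aeval x q ∈ V := by
  induction q using Polynomial.induction_on' with
  | add p q hp hq => rw [map_add]; exact V.add_mem _ _ hp hq
  | monomial n a =>
    rw [aeval_monomial]
    refine V.mul_mem _ _ ?_ (pow_mem hx n)
    exact mem_valuationSubring_of_isIntegral V isIntegral_algebraMap

/-- Key integrality lemma: if `x ^ N * q(x) = r(x)` with `deg r ≤ N` then `q(x)` is integral
over `ℤ`. -/
theorem isIntegral_aeval_of_pow_mul_eq [CharZero L] {x : L} (hx0 : x ≠ 0) (q r : ℤ[X]) (N : ℕ)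
    (hr : r.natDegree ≤ N) (h : x ^ N * aeval x q = aeval x r) :
    IsIntegral ℤ (aeval x q) := by
  by_contra hni
  have hmem : aeval x q ∉ (integralClosure ℤ L).toSubring := hni
  haveI : IsIntegrallyClosedIn (integralClosure ℤ L).toSubring L :=
    inferInstanceAs (IsIntegrallyClosedIn (integralClosure ℤ L) L)
  obtain ⟨V, -, hV⟩ := Subring.exists_le_valuationSubring_of_isIntegrallyClosedIn hmem
  apply hV
  by_cases hxV : x ∈ V
  · exact aeval_mem_valuationSubring V hxV q
  · have hinv : x⁻¹ ∈ V := (V.mem_or_inv_mem x).resolve_left hxV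
    letI := invertibleOfNonzero hx0
    have h2 := eval₂_reflect_mul_pow (algebraMap ℤ L) x N r hr
    have h3 : aeval x q = aeval x⁻¹ (reflect N r) := by
      have hxN : x ^ N ≠ 0 := pow_ne_zero _ hx0
      apply mul_left_cancel₀ hxN
      rw [h, aeval_def, aeval_def, ← h2, invOf_eq_inv, mul_comm]
    rw [h3]
    exact aeval_mem_valuationSubring V hinv _

end Fermat.Agent.Frob
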